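import Mathlib

/-!
# S18 / b2 — DET-RANK lemma (helper633), Mathlib-only

`pow_dvd_det_of_rank_le`: let `π : R → κ` be a surjective ring homomorphism onto a field with
kernel `(p)`; if the reduction `M.map π` of a square matrix `M` has rank `≤ r`, then
`p ^ (n - r) ∣ det M`.
-/

set_option autoImplicit false

namespace Fermat.Agent.S18.H633

open Matrix IsLocalRing

variable {R : Type*} [CommRing R]
variable {ι : Type*} [Fintype ι] [DecidableEq ι]

/-- One column step: if `M *ᵥ v = p • c` and `v j₀ = 1`, then `det M = p * det (M with column j₀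
replaced by c)`. -/
theorem det_eq_mul_det_updateCol (M : Matrix ι ι R) (p : R) (v c : ι → R) (j₀ : ι)
    (hv : v j₀ = 1) (hMv : M *ᵥ v = p • c) :
    M.det = p * (M.updateCol j₀ c).det := by
  have h1 := Matrix.det_updateCol_sum M j₀ v
  have h2 : (fun k => ∑ i, v i • M k i) = p • c := by
    rw [← hMv]
    funext k
    simp only [Matrix.mulVec, dotProduct, smul_eq_mul]
    exact Finset.sum_congr rfl fun i _ => mul_comm _ _
  rw [h2, Matrix.det_updateCol_smul, hv, one_smul] at h1
  exact h1.symm

/-- Replacing one column raises the rank by at most one (over a field). -/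
theorem rank_updateCol_le {κ : Type*} [Field κ] (A : Matrix ι ι κ) (j₀ : ι) (c : ι → κ) :
    (A.updateCol j₀ c).rank ≤ A.rank + 1 := by
  classical
  have hsub : LinearMap.range (A.updateCol j₀ c).mulVecLin ≤
      LinearMap.range A.mulVecLin ⊔ Submodule.span κ {c} := by
    rintro _ ⟨w, rfl⟩
    have : (A.updateCol j₀ c).mulVecLin w =
        A.mulVecLin (Function.update w j₀ 0) + w j₀ • c := by
      funext k
      simp only [Matrix.mulVecLin_apply, Matrix.mulVec, dotProduct, Pi.add_apply, Pi.smul_apply,
        smul_eq_mul]
      rw [← Finset.add_sum_erase _ _ (Finset.mem_univ j₀),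
        ← Finset.add_sum_erase (f := fun i => A k i * Function.update w j₀ 0 i) _
          (Finset.mem_univ j₀)]
      simp only [Matrix.updateCol_self, Function.update_self, mul_zero, zero_add]
      rw [add_comm, mul_comm]
      congr 1
      refine Finset.sum_congr rfl fun i hi => ?_
      have hij : i ≠ j₀ := Finset.ne_of_mem_erase hi
      rw [Matrix.updateCol_ne hij, Function.update_of_ne hij]
    rw [this]
    exact Submodule.add_mem_sup ⟨_, rfl⟩
      (Submodule.smul_mem _ _ (Submodule.mem_span_singleton_self c))
  calc (A.updateCol j₀ c).rank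
      = Module.finrank κ (LinearMap.range (A.updateCol j₀ c).mulVecLin) := rfl
    _ ≤ Module.finrank κ ↥(LinearMap.range A.mulVecLin ⊔ Submodule.span κ {c}) :=
        Submodule.finrank_mono hsub
    _ ≤ Module.finrank κ (LinearMap.range A.mulVecLin) +
          Module.finrank κ (Submodule.span κ {c}) :=
        Submodule.finrank_add_le_finrank_add_finrank _ _
    _ ≤ A.rank + 1 := by
        have : Module.finrank κ (Submodule.span κ {c}) ≤ 1 := by
          have := finrank_span_le_card (R := κ) ({c} : Set (ι → κ))
          simpa using this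
        exact Nat.add_le_add_left this _

/-- **DET-RANK.** Let `π : R → κ` be a surjective ring homomorphism onto a field with kernel
`(p)`.  If the reduction of `M` has rank `≤ n - k`, then `p ^ k ∣ det M`. -/
theorem pow_dvd_det_of_rank_add_le {κ : Type*} [Field κ] (π : R →+* κ)
    (hπ : Function.Surjective π) (p : R) (hp : RingHom.ker π = Ideal.span {p}) :
    ∀ (k : ℕ) (M : Matrix ι ι R),
      (M.map π).rank + k ≤ Fintype.card ι → p ^ k ∣ M.det := by
  classical
  intro k
  induction k with
  | zero => intro M _; simp
  | succ k ih =>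
    intro M hM
    set A : Matrix ι ι κ := M.map π with hA
    -- the reduction is not injective
    have hlt : A.rank < Fintype.card ι := by omega
    have hninj : ¬ Function.Injective A.mulVecLin := by
      intro hinj
      have := LinearMap.finrank_range_of_inj hinj
      rw [Module.finrank_pi] at this
      have h2 : A.rank = Fintype.card ι := by
        show Module.finrank _ (LinearMap.range A.mulVecLin) = _
        rw [this]
      omega
    obtain ⟨vb, hvb0, hvb⟩ : ∃ vb : ι → κ, vb ≠ 0 ∧ A *ᵥ vb = 0 := by
      rw [← LinearMap.ker_eq_bot, Submodule.eq_bot_iff] at hninj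
      push Not at hninj
      obtain ⟨x, hx, hx0⟩ := hninj
      exact ⟨x, hx0, by simpa using hx⟩
    obtain ⟨j₀, hj₀⟩ : ∃ j₀, vb j₀ ≠ 0 := by
      by_contra h
      push Not at h
      exact hvb0 (funext h)
    -- normalise and lift
    choose lift hlift using hπ
    let v : ι → R := Function.update (fun i => lift ((vb j₀)⁻¹ * vb i)) j₀ 1
    have hvres : ∀ i, π (v i) = (vb j₀)⁻¹ * vb i := by
      intro i
      by_cases hi : i = j₀
      · subst hi
        simp [v, inv_mul_cancel₀ hj₀]
      · simp [v, Function.update_of_ne hi, hlift]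
    have hMv : ∀ i, (M *ᵥ v) i ∈ RingHom.ker π := by
      intro i
      rw [RingHom.mem_ker]
      have : π ((M *ᵥ v) i) = (A *ᵥ ((vb j₀)⁻¹ • vb)) i := by
        simp only [Matrix.mulVec, dotProduct, map_sum, map_mul, hvres, hA, Matrix.map_apply,
          Pi.smul_apply, smul_eq_mul]
      rw [this, Matrix.mulVec_smul, hvb, smul_zero, Pi.zero_apply]
    have hc : ∀ i, ∃ ci, (M *ᵥ v) i = p * ci := by
      intro i
      have := hMv i
      rw [hp, Ideal.mem_span_singleton'] at this
      obtain ⟨a, ha⟩ := this
      exact ⟨a, by rw [← ha, mul_comm]⟩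
    choose c hc using hc
    have hMvc : M *ᵥ v = p • c := funext fun i => by simp [hc i]
    have hdet := det_eq_mul_det_updateCol M p v c j₀ (by simp [v]) hMvc
    have hrank : ((M.updateCol j₀ c).map π).rank + k ≤ Fintype.card ι := by
      have h1 : (M.updateCol j₀ c).map π = A.updateCol j₀ (fun i => π (c i)) := by
        ext i j
        by_cases hj : j = j₀
        · subst hj; simp [hA]
        · simp [hA, Matrix.updateCol_ne hj]
      rw [h1]
      have := rank_updateCol_le A j₀ (fun i => π (c i))
      omega
    obtain ⟨d, hd⟩ := ih _ hrank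
    exact ⟨d, by rw [hdet, hd, pow_succ]; ring⟩

/-- **DET-RANK**, subtraction form. -/
theorem pow_dvd_det_of_rank_le {κ : Type*} [Field κ] (π : R →+* κ)
    (hπ : Function.Surjective π) (p : R) (hp : RingHom.ker π = Ideal.span {p})
    (M : Matrix ι ι R) (r : ℕ) (h : (M.map π).rank ≤ r) :
    p ^ (Fintype.card ι - r) ∣ M.det := by
  by_cases hr : r ≤ Fintype.card ι
  · exact pow_dvd_det_of_rank_add_le π hπ p hp _ M (by omega)
  · have : Fintype.card ι - r = 0 := by omega
    simp [this]

end Fermat.Agent.S18.H633
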