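import Mathlib

/-!
# S18 / b2 — radical of the trace form in characteristic zero (helper633), Mathlib-only

For a finite-dimensional commutative algebra `A` over a field `κ` of characteristic zero, the
radical of the trace form is contained in the nilradical:
`(∀ y, Tr (x * y) = 0) → IsNilpotent x`.

Proof: if `x` is not nilpotent, the chain `(xⁿ)` stabilises (`A` is Artinian), which produces a
nonzero idempotent `e = x * y`; the trace of `e` is the dimension of `e A`, nonzero in char 0.
-/

set_option autoImplicit false

namespace Fermat.Agent.S18.H633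

open Module

section Idempotent

variable {κ A : Type*} [Field κ] [CommRing A] [Algebra κ A] [FiniteDimensional κ A]

/-- The trace of a nonzero idempotent of a finite-dimensional algebra over a field of
characteristic zero is nonzero. -/
theorem trace_ne_zero_of_isIdempotentElem [CharZero κ] (e : A) (he : IsIdempotentElem e)
    (he0 : e ≠ 0) : Algebra.trace κ A e ≠ 0 := by
  have hidem : IsIdempotentElem (Algebra.lmul κ A e) := by
    show Algebra.lmul κ A e * Algebra.lmul κ A e = Algebra.lmul κ A e
    rw [← map_mul, he.eq]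
  have hproj := LinearMap.IsIdempotentElem.isProj_range _ hidem
  have htr : Algebra.trace κ A e = (finrank κ (LinearMap.range (Algebra.lmul κ A e)) : κ) := by
    rw [Algebra.trace_apply]
    exact hproj.trace
  rw [htr]
  have hpos : 0 < finrank κ (LinearMap.range (Algebra.lmul κ A e)) := by
    rw [Module.finrank_pos_iff]
    refine ⟨⟨⟨e, ⟨e, ?_⟩⟩, 0, ?_⟩⟩
    · show e * e = e
      exact he.eq
    · intro h
      exact he0 (congrArg Subtype.val h)
  exact_mod_cast hpos.ne'

/-- In an Artinian commutative ring, a non-nilpotent element has a multiple which is a nonzero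
idempotent. -/
theorem exists_idempotent_mul_of_not_isNilpotent {B : Type*} [CommRing B] [IsArtinianRing B]
    (x : B) (hx : ¬ IsNilpotent x) :
    ∃ y : B, IsIdempotentElem (x * y) ∧ x * y ≠ 0 := by
  -- the chain of ideals `(x ^ n)` stabilises
  let f : ℕ →o (Ideal B)ᵒᵈ :=
    ⟨fun n => OrderDual.toDual (Ideal.span {x ^ n}), fun m n hmn => by
      show Ideal.span {x ^ n} ≤ Ideal.span {x ^ m}
      rw [Ideal.span_singleton_le_span_singleton]
      exact pow_dvd_pow x hmn⟩
  obtain ⟨n, hn⟩ := IsArtinian.monotone_stabilizes f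
  have h1 : Ideal.span {x ^ (n + 1)} = Ideal.span {x ^ (n + 1 + (n + 1))} := by
    have ha := hn (n + 1) (Nat.le_add_right n 1)
    have hb := hn (n + 1 + (n + 1)) (by omega)
    exact congrArg OrderDual.ofDual (ha.symm.trans hb)
  have h2 : x ^ (n + 1) ∈ Ideal.span {x ^ (n + 1 + (n + 1))} := by
    rw [← h1]; exact Ideal.mem_span_singleton_self _
  obtain ⟨z, hz⟩ := Ideal.mem_span_singleton'.mp h2
  -- `hz : z * x ^ (n + 1 + (n + 1)) = x ^ (n + 1)`
  have he : x * (z * x ^ n) = z * x ^ (n + 1) := by ring
  refine ⟨z * x ^ n, ?_, ?_⟩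
  · rw [he]
    show z * x ^ (n + 1) * (z * x ^ (n + 1)) = z * x ^ (n + 1)
    calc z * x ^ (n + 1) * (z * x ^ (n + 1)) = z * (z * x ^ (n + 1 + (n + 1))) := by ring
      _ = z * x ^ (n + 1) := by rw [hz]
  · rw [he]
    intro h0
    apply hx
    refine ⟨n + 1, ?_⟩
    calc x ^ (n + 1) = z * x ^ (n + 1 + (n + 1)) := hz.symm
      _ = z * x ^ (n + 1) * x ^ (n + 1) := by ring
      _ = 0 := by rw [h0, zero_mul]

/-- **TRACE-NIL (char 0).** In a finite-dimensional commutative algebra over a field of
characteristic zero, an element in the radical of the trace form is nilpotent. -/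
theorem isNilpotent_of_forall_trace_mul_eq_zero [CharZero κ] (x : A)
    (h : ∀ y : A, Algebra.trace κ A (x * y) = 0) : IsNilpotent x := by
  by_contra hx
  have : IsArtinianRing A := IsArtinianRing.of_finite κ A
  obtain ⟨y, hidem, hne⟩ := exists_idempotent_mul_of_not_isNilpotent x hx
  exact trace_ne_zero_of_isIdempotentElem (κ := κ) (x * y) hidem hne (h y)

end Idempotent

end Fermat.Agent.S18.H633
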