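import Mathlib
import Fermat.Agent.S18.H633.DetRank
import Fermat.Agent.S18.H633.TraceNil

/-!
# S18 / b2.3 — TAME discriminant bound in residue characteristic zero (helper633), Mathlib-only

`R` a discrete valuation ring with residue field `κ = R ⧸ 𝔪` of characteristic zero,
`T` an integrally closed domain, finite free over `R`, `b` a basis.  Then

  `addVal (discr R b) + dim_κ (T/𝔪T)_red ≤ rank_R T`.

(The reverse inequality holds for every finite free `T`, so this is the tame discriminant
formula `v(disc) = n - #points`.)
-/

set_option autoImplicit false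

namespace Fermat.Agent.S18.H633

open IsLocalRing Module

attribute [local instance] FractionRing.liftAlgebra FractionRing.isScalarTower_liftAlgebra
  Ideal.Quotient.field

section Different

variable {R : Type*} [CommRing R] [IsDomain R] [IsDiscreteValuationRing R]
variable {T : Type*} [CommRing T] [IsDedekindDomain T] [Algebra R T]
  [Module.Finite R T]

/-- Every nonzero prime of `T` contains the uniformiser of `R`. -/
theorem uniformizer_mem_of_isPrime (p : R) (hp : Irreducible p) (P : Ideal T) [P.IsPrime]
    (hP0 : P ≠ ⊥) : algebraMap R T p ∈ P := by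
  have hcomap : P.comap (algebraMap R T) ≠ ⊥ := fun h => hP0 (Ideal.eq_bot_of_comap_eq_bot h)
  have hprime : (P.comap (algebraMap R T)).IsPrime := Ideal.IsPrime.comap _
  have hmax : (P.comap (algebraMap R T)).IsMaximal := hprime.isMaximal hcomap
  have heq := IsLocalRing.eq_maximalIdeal hmax
  have : p ∈ P.comap (algebraMap R T) := by
    rw [heq, hp.maximalIdeal_eq]
    exact Ideal.mem_span_singleton_self p
  exact this

/-- In residue characteristic zero, the uniformiser of `R` lies in the different of `T/R`
(tameness: `v_P(𝔇) ≤ e_P - 1 < e_P`). -/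
theorem uniformizer_mem_differentIdeal [Module.Free R T] [CharZero (R ⧸ maximalIdeal R)]
    [Algebra.IsSeparable (FractionRing R) (FractionRing T)]
    (p : R) (hp : Irreducible p) : algebraMap R T p ∈ differentIdeal R T := by
  classical
  have hD : differentIdeal R T ≠ ⊥ := differentIdeal_ne_bot
  set I : Ideal T := Ideal.span {algebraMap R T p} with hI
  have hmapI : Ideal.map (algebraMap R T) (maximalIdeal R) = I := by
    rw [hp.maximalIdeal_eq, Ideal.map_span, Set.image_singleton]
  have hp0 : algebraMap R T p ≠ 0 := by
    intro h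
    have := (FaithfulSMul.algebraMap_injective R T) (h.trans (map_zero _).symm)
    exact hp.ne_zero this
  have hI0 : I ≠ ⊥ := by
    rw [hI, Ne, Ideal.span_singleton_eq_bot]
    exact hp0
  rw [← Ideal.span_singleton_le_iff_mem, ← Ideal.dvd_iff_le,
    UniqueFactorizationMonoid.dvd_iff_emultiplicity_le hD]
  intro P hP
  rw [emultiplicity_le_emultiplicity_iff]
  intro k hk
  have hPprime : P.IsPrime := Ideal.isPrime_of_prime hP
  have hP0 : P ≠ ⊥ := hP.ne_zero
  have hPmax : P.IsMaximal := hPprime.isMaximal hP0
  have hpP : algebraMap R T p ∈ P := uniformizer_mem_of_isPrime p hp P hP0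
  have hPI : P ∣ I := by
    rw [Ideal.dvd_iff_le, hI, Ideal.span_singleton_le_iff_mem]
    exact hpP
  have hfin : FiniteMultiplicity P I := FiniteMultiplicity.of_not_isUnit hP.not_isUnit hI0
  obtain ⟨Q, hQ, hPQ⟩ := hfin.exists_eq_pow_mul_and_not_dvd
  set e := multiplicity P I with he
  have he1 : e ≠ 0 := by
    rw [he, Ne, multiplicity_eq_zero]
    exact fun h => h hPI
  -- `P ^ e` and `Q` are coprime
  have hcopPQ : IsCoprime P Q := by
    rw [Ideal.isCoprime_iff_sup_eq]
    by_contra hne
    have hle : P ⊔ Q ≤ P := by
      have := hPmax.eq_of_le hne le_sup_left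
      exact this.symm.le
    exact hPQ (Ideal.dvd_iff_le.mpr (le_trans le_sup_right hle))
  have hcop : IsCoprime (P ^ e) Q := hcopPQ.pow_left
  obtain ⟨a, ha, c, hc, hac⟩ := Ideal.isCoprime_iff_exists.mp hcop
  -- the key non-divisibility
  have hkey : ¬ P ^ e ∣ differentIdeal R T := by
    refine not_dvd_differentIdeal_of_intTrace_not_mem R (P ^ e) Q (p := maximalIdeal R)
      (by rw [hmapI]; exact hQ.symm) c hc ?_
    rw [Algebra.intTrace_eq_trace, ← Ideal.Quotient.eq_zero_iff_mem, ← Algebra.trace_quotient_mk]
    refine trace_ne_zero_of_isIdempotentElem _ ?_ ?_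
    · show Ideal.Quotient.mk _ c * Ideal.Quotient.mk _ c = Ideal.Quotient.mk _ c
      rw [← map_mul, Ideal.Quotient.eq, hmapI, hQ]
      have : c * c - c = -(a * c) := by
        have : a = 1 - c := by rw [← hac]; ring
        rw [this]; ring
      rw [this]
      exact neg_mem (Ideal.mul_mem_mul ha hc)
    · intro h0
      rw [Ideal.Quotient.eq_zero_iff_mem, hmapI, hQ] at h0
      have hcP : c ∈ P ^ e := (Ideal.mul_le_left : P ^ e * Q ≤ P ^ e) h0
      have h1 : (1 : T) ∈ P ^ e := by
        rw [← hac]; exact Ideal.add_mem _ ha hcP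
      have h1P : (1 : T) ∈ P := Ideal.pow_le_self he1 h1
      exact hPprime.ne_top ((Ideal.eq_top_iff_one _).mpr h1P)
  -- conclude
  by_cases hke : e ≤ k
  · exact absurd ((pow_dvd_pow P hke).trans hk) hkey
  · push Not at hke
    exact (pow_dvd_pow P hke.le).trans ⟨Q, hQ⟩

end Different

section Dual

variable {R : Type*} [CommRing R] [IsDomain R] [IsDiscreteValuationRing R]
variable {T : Type*} [CommRing T] [IsDedekindDomain T] [Algebra R T]
  [Module.Free R T] [Module.Finite R T]

/-- If `x ∈ Frac T` pairs integrally with `T` under the trace form, then `p * x ∈ T`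
(residue characteristic zero). -/
theorem exists_eq_uniformizer_mul_of_mem_dual [CharZero (R ⧸ maximalIdeal R)]
    [Algebra.IsSeparable (FractionRing R) (FractionRing T)]
    [FiniteDimensional (FractionRing R) (FractionRing T)]
    [IsIntegralClosure T R (FractionRing T)]
    (p : R) (hp : Irreducible p) (x : FractionRing T)
    (hx : ∀ t : T, Algebra.trace (FractionRing R) (FractionRing T)
      (x * algebraMap T (FractionRing T) t) ∈ (algebraMap R (FractionRing R)).range) :
    ∃ t : T, algebraMap T (FractionRing T) t = algebraMap R (FractionRing T) p * x := by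
  have hne : (1 : FractionalIdeal (nonZeroDivisors T) (FractionRing T)) ≠ 0 := by simp
  have hmem : x ∈ FractionalIdeal.dual R (FractionRing R)
      (1 : FractionalIdeal (nonZeroDivisors T) (FractionRing T)) := by
    rw [FractionalIdeal.mem_dual hne]
    intro a ha
    obtain ⟨t, rfl⟩ := (FractionalIdeal.mem_one_iff _).mp ha
    rw [Algebra.traceForm_apply]
    exact hx t
  have hpD := uniformizer_mem_differentIdeal (T := T) p hp
  have h1 : algebraMap T (FractionRing T) (algebraMap R T p) ∈
      (↑(differentIdeal R T) : FractionalIdeal (nonZeroDivisors T) (FractionRing T)) :=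
    (FractionalIdeal.mem_coeIdeal _).mpr ⟨_, hpD, rfl⟩
  have h2 := FractionalIdeal.mul_mem_mul h1 hmem
  rw [coeIdeal_differentIdeal R (FractionRing R) (FractionRing T) T,
    inv_mul_cancel₀ (FractionalIdeal.dual_ne_zero R (FractionRing R) hne)] at h2
  obtain ⟨t, ht⟩ := (FractionalIdeal.mem_one_iff _).mp h2
  exact ⟨t, by rw [ht, ← IsScalarTower.algebraMap_apply]⟩

/-- The Gram matrix of the trace form divides `p` (residue characteristic zero):
there is `M` with `G * M = p • 1`. -/
theorem exists_traceMatrix_mul_eq_smul_one [CharZero (R ⧸ maximalIdeal R)]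
    [Algebra.IsSeparable (FractionRing R) (FractionRing T)]
    [FiniteDimensional (FractionRing R) (FractionRing T)]
    [IsIntegralClosure T R (FractionRing T)]
    [IsLocalization (Algebra.algebraMapSubmonoid T (nonZeroDivisors R)) (FractionRing T)]
    {ι : Type*} [Fintype ι] [DecidableEq ι] (b : Basis ι R T) (p : R) (hp : Irreducible p) :
    ∃ M : Matrix ι ι R, Algebra.traceMatrix R b * M = p • (1 : Matrix ι ι R) := by
  classical
  let bK : Basis ι (FractionRing R) (FractionRing T) :=
    b.localizationLocalization (FractionRing R) (nonZeroDivisors R) (FractionRing T)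
  have hbK : ∀ i, bK i = algebraMap T (FractionRing T) (b i) := fun i =>
    Basis.localizationLocalization_apply _ _ _ b i
  have hnd := traceForm_nondegenerate (FractionRing R) (FractionRing T)
  let d := (Algebra.traceForm (FractionRing R) (FractionRing T)).dualBasis hnd bK
  have hdb : ∀ i j, Algebra.trace (FractionRing R) (FractionRing T)
      (d j * algebraMap T (FractionRing T) (b i)) = if i = j then 1 else 0 := by
    intro i j
    have := LinearMap.BilinForm.apply_dualBasis_left hnd bK j i
    rw [Algebra.traceForm_apply, hbK] at this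
    exact this
  have hsm : ∀ (r : R) (t : T), algebraMap T (FractionRing T) (r • t) =
      algebraMap R (FractionRing R) r • algebraMap T (FractionRing T) t := by
    intro r t
    rw [Algebra.smul_def, RingHom.map_mul, ← IsScalarTower.algebraMap_apply R T (FractionRing T),
      IsScalarTower.algebraMap_apply R (FractionRing R) (FractionRing T), ← Algebra.smul_def]
  have hd : ∀ j (t : T), Algebra.trace (FractionRing R) (FractionRing T)
      (d j * algebraMap T (FractionRing T) t) = algebraMap R (FractionRing R) (b.repr t j) := by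
    intro j t
    conv_lhs => rw [← b.sum_repr t]
    rw [map_sum, Finset.mul_sum, map_sum]
    have : ∀ i ∈ Finset.univ, Algebra.trace (FractionRing R) (FractionRing T)
        (d j * algebraMap T (FractionRing T) (b.repr t i • b i)) =
          if i = j then algebraMap R (FractionRing R) (b.repr t i) else 0 := by
      intro i _
      rw [hsm, mul_smul_comm, LinearMap.map_smul, hdb, smul_eq_mul]
      split_ifs <;> simp
    rw [Finset.sum_congr rfl this, Finset.sum_ite_eq' Finset.univ j, if_pos (Finset.mem_univ j)]
  choose tt htt using fun j =>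
    exists_eq_uniformizer_mul_of_mem_dual p hp (d j) (fun t => ⟨_, (hd j t).symm⟩)
  refine ⟨Matrix.of fun k j => b.repr (tt j) k, ?_⟩
  ext i j
  have h1 : (Algebra.traceMatrix R b * Matrix.of fun k j => b.repr (tt j) k) i j =
      Algebra.trace R T (b i * tt j) := by
    rw [Matrix.mul_apply]
    conv_rhs => rw [← b.sum_repr (tt j)]
    rw [Finset.mul_sum, map_sum]
    refine Finset.sum_congr rfl fun k _ => ?_
    rw [Matrix.of_apply, Algebra.traceMatrix_apply, Algebra.traceForm_apply, mul_smul_comm,
      LinearMap.map_smul, smul_eq_mul, mul_comm]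
  rw [h1]
  apply IsFractionRing.injective R (FractionRing R)
  have h2 : algebraMap R (FractionRing R) (Algebra.trace R T (b i * tt j)) =
      Algebra.trace (FractionRing R) (FractionRing T)
        (algebraMap T (FractionRing T) (b i * tt j)) :=
    (Algebra.trace_localization R (nonZeroDivisors R) (Rₘ := FractionRing R)
      (Sₘ := FractionRing T) (b i * tt j)).symm
  have h3 : algebraMap T (FractionRing T) (b i * tt j) =
      algebraMap R (FractionRing R) p • (d j * algebraMap T (FractionRing T) (b i)) := by
    rw [RingHom.map_mul, htt j,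
      IsScalarTower.algebraMap_apply R (FractionRing R) (FractionRing T), Algebra.smul_def]
    ring
  rw [h2, h3, LinearMap.map_smul, hdb, Matrix.smul_apply, Matrix.one_apply, smul_eq_mul,
    smul_eq_mul]
  split_ifs <;> simp

end Dual

section Rank

open Matrix

variable {R : Type*} [CommRing R] [IsLocalRing R]
variable {T : Type*} [CommRing T] [Algebra R T] [Module.Free R T] [Module.Finite R T]

/-- If `G * M ≡ 0` modulo the maximal ideal (`G` the Gram matrix of the trace form), then the
columns of `M mod 𝔪` are nilpotent elements of the special fibre; hence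
`rank (M mod 𝔪) + dim (T/𝔪T)_red ≤ n` (residue characteristic zero). -/
theorem rank_map_add_finrank_red_le [CharZero (R ⧸ maximalIdeal R)]
    {ι : Type*} [Fintype ι] [DecidableEq ι] (b : Basis ι R T) (M : Matrix ι ι R)
    (hGM : (Algebra.traceMatrix R b * M).map (Ideal.Quotient.mk (maximalIdeal R)) = 0) :
    (M.map (Ideal.Quotient.mk (maximalIdeal R))).rank +
      finrank (R ⧸ maximalIdeal R)
        ((T ⧸ (maximalIdeal R).map (algebraMap R T)) ⧸
          nilradical (T ⧸ (maximalIdeal R).map (algebraMap R T))) ≤ Fintype.card ι := by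
  classical
  set π := Ideal.Quotient.mk (maximalIdeal R) with hπ
  set A := M.map π with hA
  set Gb := (Algebra.traceMatrix R b).map π with hGb
  have hmul : Gb * A = 0 := by
    rw [hGb, hA, ← Matrix.map_mul, hGM]
  let bq := basisQuotient b
  have : Module.Finite (R ⧸ maximalIdeal R) (T ⧸ (maximalIdeal R).map (algebraMap R T)) :=
    Module.Finite.of_basis bq
  have hGbq : ∀ i j, Gb i j = Algebra.trace (R ⧸ maximalIdeal R)
      (T ⧸ (maximalIdeal R).map (algebraMap R T)) (bq i * bq j) := by
    intro i j
    rw [hGb, Matrix.map_apply, Algebra.traceMatrix_apply, Algebra.traceForm_apply, hπ,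
      ← Algebra.trace_quotient_mk, map_mul]
    simp [bq, basisQuotient_apply]
  let N : Submodule (R ⧸ maximalIdeal R) (T ⧸ (maximalIdeal R).map (algebraMap R T)) :=
    (nilradical (T ⧸ (maximalIdeal R).map (algebraMap R T))).restrictScalars (R ⧸ maximalIdeal R)
  let φ : (ι → R ⧸ maximalIdeal R) ≃ₗ[R ⧸ maximalIdeal R]
      (T ⧸ (maximalIdeal R).map (algebraMap R T)) := bq.equivFun.symm
  have hφ : ∀ v, φ v = ∑ j, v j • bq j := fun v => Basis.equivFun_symm_apply bq v
  have hker : ∀ v, Gb *ᵥ v = 0 → φ v ∈ N := by
    intro v hv
    show φ v ∈ nilradical _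
    rw [mem_nilradical]
    apply isNilpotent_of_forall_trace_mul_eq_zero (κ := R ⧸ maximalIdeal R)
    intro y
    have hbasis : ∀ i, Algebra.trace (R ⧸ maximalIdeal R)
        (T ⧸ (maximalIdeal R).map (algebraMap R T)) (φ v * bq i) = 0 := by
      intro i
      rw [hφ, Finset.sum_mul, map_sum]
      have h0 := congrFun hv i
      simp only [Matrix.mulVec, dotProduct, Pi.zero_apply] at h0
      rw [← h0]
      refine Finset.sum_congr rfl fun j _ => ?_
      rw [smul_mul_assoc, LinearMap.map_smul, smul_eq_mul, hGbq, mul_comm (bq i), mul_comm]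
    rw [← bq.sum_repr y, Finset.mul_sum, map_sum]
    refine Finset.sum_eq_zero fun i _ => ?_
    rw [mul_smul_comm, LinearMap.map_smul, hbasis, smul_zero]
  have hrange : LinearMap.range A.mulVecLin ≤ N.comap φ.toLinearMap := by
    rintro _ ⟨w, rfl⟩
    apply hker
    rw [Matrix.mulVecLin_apply, Matrix.mulVec_mulVec, hmul, Matrix.zero_mulVec]
  have h1 : A.rank ≤ finrank (R ⧸ maximalIdeal R) N := by
    calc A.rank = finrank (R ⧸ maximalIdeal R) (LinearMap.range A.mulVecLin) := rfl
      _ ≤ finrank (R ⧸ maximalIdeal R) (N.comap φ.toLinearMap) := Submodule.finrank_mono hrange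
      _ = finrank (R ⧸ maximalIdeal R) N := (φ.ofSubmodule' N).finrank_eq
  have h2 : finrank (R ⧸ maximalIdeal R) ((T ⧸ (maximalIdeal R).map (algebraMap R T)) ⧸ N) +
      finrank (R ⧸ maximalIdeal R) N = Fintype.card ι := by
    rw [Submodule.finrank_quotient_add_finrank, finrank_eq_card_basis bq]
  have h3 : finrank (R ⧸ maximalIdeal R)
        ((T ⧸ (maximalIdeal R).map (algebraMap R T)) ⧸
          nilradical (T ⧸ (maximalIdeal R).map (algebraMap R T))) =
      finrank (R ⧸ maximalIdeal R) ((T ⧸ (maximalIdeal R).map (algebraMap R T)) ⧸ N) :=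
    (Submodule.Quotient.restrictScalarsEquiv (R ⧸ maximalIdeal R)
      (nilradical (T ⧸ (maximalIdeal R).map (algebraMap R T)))).finrank_eq.symm
  rw [h3]
  omega

end Rank

section Main

variable {R : Type*} [CommRing R] [IsDomain R] [IsDiscreteValuationRing R]
variable {T : Type*} [CommRing T] [IsDomain T] [IsIntegrallyClosed T] [Algebra R T]
  [Module.Free R T] [Module.Finite R T]

/-- **TAME (b2.3 / (α)).**  `R` a DVR with residue field of characteristic zero, `T` an
integrally closed domain, finite free over `R` with basis `b`.  Then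
`v(discr b) + dim_κ (T/𝔪T)_red ≤ rank_R T`. -/
theorem addVal_discr_add_finrank_red_le [CharZero (R ⧸ maximalIdeal R)]
    {ι : Type*} [Fintype ι] [DecidableEq ι] (b : Basis ι R T) :
    IsDiscreteValuationRing.addVal R (Algebra.discr R b) +
      (finrank (R ⧸ maximalIdeal R)
        ((T ⧸ (maximalIdeal R).map (algebraMap R T)) ⧸
          nilradical (T ⧸ (maximalIdeal R).map (algebraMap R T))) : ℕ∞) ≤ (finrank R T : ℕ∞) := by
  classical
  obtain ⟨p, hp⟩ := IsDiscreteValuationRing.exists_irreducible R
  -- instances
  have : CharZero R := by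
    refine ⟨fun a c hac => ?_⟩
    have := congrArg (Ideal.Quotient.mk (maximalIdeal R)) hac
    simpa using this
  have : CharZero (FractionRing R) :=
    charZero_of_injective_algebraMap (IsFractionRing.injective R (FractionRing R))
  have : IsIntegralClosure T R (FractionRing T) :=
    IsIntegralClosure.of_isIntegrallyClosed T R (FractionRing T)
  have : Algebra.IsAlgebraic (FractionRing R) (FractionRing T) :=
    isAlgebraic_of_isFractionRing R T (FractionRing R) (FractionRing T)
  have : IsLocalization (Algebra.algebraMapSubmonoid T (nonZeroDivisors R)) (FractionRing T) :=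
    IsIntegralClosure.isLocalization R (FractionRing R) (FractionRing T) T
  have : FiniteDimensional (FractionRing R) (FractionRing T) :=
    Module.Finite.of_isLocalization R T (nonZeroDivisors R)
  have : Algebra.IsSeparable (FractionRing R) (FractionRing T) :=
    Algebra.IsSeparable.of_integral _ _
  have : IsDedekindDomain T :=
    IsIntegralClosure.isDedekindDomain R (FractionRing R) (FractionRing T) T
  -- the matrix `M`
  obtain ⟨M, hM⟩ := exists_traceMatrix_mul_eq_smul_one b p hp
  have hdet : Algebra.discr R b * M.det = p ^ Fintype.card ι := by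
    rw [Algebra.discr_def, ← Matrix.det_mul, hM, Matrix.det_smul, Matrix.det_one, mul_one]
  have hpm : Ideal.Quotient.mk (maximalIdeal R) p = 0 := by
    rw [Ideal.Quotient.eq_zero_iff_mem, hp.maximalIdeal_eq]
    exact Ideal.mem_span_singleton_self p
  have hGM : (Algebra.traceMatrix R b * M).map (Ideal.Quotient.mk (maximalIdeal R)) = 0 := by
    rw [hM]
    ext i j
    simp [Matrix.map_apply, Matrix.smul_apply, hpm]
  have hr := rank_map_add_finrank_red_le b M hGM
  have hdvd := pow_dvd_det_of_rank_le (Ideal.Quotient.mk (maximalIdeal R))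
    Ideal.Quotient.mk_surjective p (by rw [Ideal.mk_ker, hp.maximalIdeal_eq]) M
    (M.map (Ideal.Quotient.mk (maximalIdeal R))).rank le_rfl
  -- valuations
  have hv : IsDiscreteValuationRing.addVal R (Algebra.discr R b) +
      IsDiscreteValuationRing.addVal R M.det = (Fintype.card ι : ℕ∞) := by
    rw [← AddValuation.map_mul, hdet, AddValuation.map_pow,
      IsDiscreteValuationRing.addVal_uniformizer hp]
    simp
  have hle : ((Fintype.card ι - (M.map (Ideal.Quotient.mk (maximalIdeal R))).rank : ℕ) : ℕ∞) ≤
      IsDiscreteValuationRing.addVal R M.det := by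
    obtain ⟨c, hc⟩ := hdvd
    rw [hc, AddValuation.map_mul, AddValuation.map_pow,
      IsDiscreteValuationRing.addVal_uniformizer hp]
    simp
  rw [finrank_eq_card_basis b, ← hv]
  refine add_le_add_right (le_trans ?_ hle) _
  exact_mod_cast (by omega)

end Main

end Fermat.Agent.S18.H633
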